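import Fermat.Agent.Elkies.Quartic
import Mathlib.NumberTheory.FLT.Four

/-!
# Infinitely many rational points on `r⁴ + s⁴ + t⁴ = 1`

Elkies' pencil at `u = 9/20`: two conics in `(x, y)` and `(x, t)` over the line of `x`, with
`r = x + y` and `s = x - y`.  The second is parametrised by the lines through `(2/5, 3/5)`, and
the first becomes `v² = q(m)`, with a point at `m = 89924/24031`, Frye's solution.
-/

set_option autoImplicit false

noncomputable section

namespace FA.Elkies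

/-- The quartic of the pencil. -/
def pencilQuartic (m : ℚ) : ℚ :=
  1552322 * m ^ 4 + 12081153 * m ^ 3 - 85257123 * m ^ 2 + 189666708 * m - 249241088

/-- The parameters of the depressed quartic. -/
def eE : ℤ := -105201912873241740528322897998319442

/-- The linear coefficient of the depressed quartic. -/
def dE : ℤ := 104135533378362172509591955304044580151601226071352152

/-- The constant coefficient of the depressed quartic. -/
def gE : ℤ := -12574517535521565963706283120192373077189974967297720128326876949433523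

/-- The point of the parameter line belonging to `K`. -/
def paramOf (K : ℚ) : ℚ := 89924 / 24031 + 842040085467528000 / (K - 396601103617559939)

/-- The square root of the quartic there. -/
def rootOf (K V : ℚ) : ℚ :=
  8249471799000 / 577488961 * V / (K - 396601103617559939) ^ 2

theorem pencilQuartic_paramOf {K V : ℚ} (hK : K ≠ 396601103617559939)
    (h : V ^ 2 = K ^ 4 + 3 * (eE : ℚ) * K ^ 2 + (dE : ℚ) * K + (gE : ℚ)) :
    rootOf K V ^ 2 = pencilQuartic (paramOf K) := by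
  have hw : K - 396601103617559939 ≠ 0 := sub_ne_zero.mpr hK
  simp only [rootOf, mul_pow, div_pow, h]
  simp only [pencilQuartic, paramOf, eE, dE, gE]
  push_cast
  field_simp
  ring

/-- The infinitely many parameters. -/
theorem infinite_params :
    {p : ℚ × ℚ | p.1 ≠ 396601103617559939 ∧
      p.2 ^ 2 = p.1 ^ 4 + 3 * (eE : ℚ) * p.1 ^ 2 + (dE : ℚ) * p.1 + (gE : ℚ)}.Infinite := by
  have h := infinite_quartic (e := eE) (d := dE) (g := gE) (by norm_num [dE])
    (by norm_num [linCoeff, constCoeff, eE, dE, gE])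
    (by rw [Int.dvd_iff_emod_eq_zero]; norm_num [linCoeff, constCoeff, eE, dE, gE])
  set v := (396601103617559939 : ℚ)
  set S := {p : ℚ × ℚ | p.2 ^ 2 = p.1 ^ 4 + 3 * (eE : ℚ) * p.1 ^ 2 + (dE : ℚ) * p.1 + (gE : ℚ)}
  have hfin : {p ∈ S | p.1 = v}.Finite := by
    rcases Set.eq_empty_or_nonempty {p ∈ S | p.1 = v} with e | ⟨w₀, h₀⟩
    · rw [e]; exact Set.finite_empty
    refine (Set.toFinite {w₀, (w₀.1, -w₀.2)}).subset fun w hw => ?_
    have e : w.1 = w₀.1 := hw.2.trans h₀.2.symm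
    have e2 : w.2 ^ 2 = w₀.2 ^ 2 := by rw [hw.1, h₀.1, e]
    rcases sq_eq_sq_iff_eq_or_eq_neg.mp e2 with e3 | e3
    · exact Or.inl (Prod.ext e e3)
    · exact Or.inr (Prod.ext e e3)
  refine (h.sdiff hfin).mono fun p hp => ⟨fun e => hp.2 ⟨hp.1, e⟩, hp.1⟩

theorem denominator_ne_zero (m : ℚ) : 881 * m ^ 2 - 2876 ≠ 0 := by
  intro h
  have h' : IsSquare ((881 * 2876 : ℕ) : ℚ) :=
    ⟨881 * m, by push_cast; linear_combination (-881 : ℚ) * h⟩
  rw [Rat.isSquare_natCast_iff] at h'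
  obtain ⟨r, hr⟩ := h'
  rcases Nat.lt_or_ge r 1592 with hr' | hr'
  · nlinarith [Nat.mul_le_mul (Nat.lt_succ_iff.mp hr') (Nat.lt_succ_iff.mp hr')]
  · nlinarith [Nat.mul_le_mul hr' hr']

/-- The abscissa on the pencil. -/
def xOf (m : ℚ) : ℚ := (1762 * m ^ 2 - 5286 * m + 12952) / (5 * (881 * m ^ 2 - 2876))

/-- The ordinate on the pencil. -/
def yOf (m v : ℚ) : ℚ := 2 * v / (5 * (881 * m ^ 2 - 2876))

/-- The third coordinate on the pencil. -/
def tOf (m : ℚ) : ℚ := 3 / 5 + m * (xOf m - 2 / 5)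

/-- **The pencil gives points of the surface.** -/
theorem surface_of_quartic {m v : ℚ} (h : v ^ 2 = pencilQuartic m) :
    (xOf m + yOf m v) ^ 4 + (xOf m - yOf m v) ^ 4 + tOf m ^ 4 = 1 := by
  have hD := denominator_ne_zero m
  have ht : 881 * tOf m ^ 2 = 2876 * xOf m ^ 2 + 1440 * xOf m - 719 := by
    simp only [tOf, xOf]
    field_simp
    ring
  have hy : 881 * yOf m v ^ 2 = -4083 * xOf m ^ 2 + 1438 * xOf m + 360 := by
    simp only [yOf, xOf, div_pow, mul_pow, h, pencilQuartic]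
    field_simp
    ring
  set x := xOf m
  set y := yOf m v
  set t := tOf m
  linear_combination ((881 * t ^ 2 + (2876 * x ^ 2 + 1440 * x - 719)) / 881 ^ 2) * ht +
    (2 * (881 * y ^ 2 + (-4083 * x ^ 2 + 1438 * x + 360)) / 881 ^ 2 + 12 * x ^ 2 / 881) * hy

/-- **Infinitely many rational points.** -/
theorem infinite_surface :
    {p : ℚ × ℚ × ℚ | p.1 ^ 4 + p.2.1 ^ 4 + p.2.2 ^ 4 = 1}.Infinite := by
  set S := {p : ℚ × ℚ | p.1 ≠ 396601103617559939 ∧
      p.2 ^ 2 = p.1 ^ 4 + 3 * (eE : ℚ) * p.1 ^ 2 + (dE : ℚ) * p.1 + (gE : ℚ)}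
  set B := {p ∈ S | paramOf p.1 = 18704 / 5286}
  have hB : B.Finite := by
    by_contra hinf
    obtain ⟨w₀, h₀⟩ := Set.Infinite.nonempty hinf
    refine hinf ((Set.toFinite {w₀, (w₀.1, -w₀.2)}).subset fun w hw => ?_)
    have e : w.1 = w₀.1 := by
      have h := hw.2.trans h₀.2.symm
      simp only [paramOf, add_right_inj] at h
      rw [div_eq_div_iff (sub_ne_zero.mpr hw.1.1) (sub_ne_zero.mpr h₀.1.1)] at h
      linarith
    have e2 : w.2 ^ 2 = w₀.2 ^ 2 := by rw [hw.1.2, h₀.1.2, e]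
    rcases sq_eq_sq_iff_eq_or_eq_neg.mp e2 with e3 | e3
    · exact Or.inl (Prod.ext e e3)
    · exact Or.inr (Prod.ext e e3)
  have hS := infinite_params.sdiff hB
  refine ((Set.infinite_image_iff (f := fun p : ℚ × ℚ =>
      (xOf (paramOf p.1) + yOf (paramOf p.1) (rootOf p.1 p.2),
        xOf (paramOf p.1) - yOf (paramOf p.1) (rootOf p.1 p.2), tOf (paramOf p.1)))
    fun p hp p' hp' e => ?_).mpr hS).mono (Set.image_subset_iff.mpr fun p hp => ?_)
  swap
  · exact surface_of_quartic (pencilQuartic_paramOf hp.1.1 hp.1.2)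
  simp only [Prod.mk.injEq] at e
  obtain ⟨e1, e2, e3⟩ := e
  set m := paramOf p.1 with hm
  set m' := paramOf p'.1 with hm'
  have ex : xOf m = xOf m' := by linarith
  have ey : yOf m (rootOf p.1 p.2) = yOf m' (rootOf p'.1 p'.2) := by linarith
  have hne : xOf m - 2 / 5 ≠ 0 := by
    intro h0
    refine hp.2 ⟨hp.1, ?_⟩
    have hD := denominator_ne_zero m
    rw [xOf, sub_eq_zero,
      div_eq_div_iff (mul_ne_zero (by norm_num) hD) (by norm_num : (5 : ℚ) ≠ 0)] at h0
    rw [← hm]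
    linarith
  have em : m = m' := by
    simp only [tOf, add_right_inj] at e3
    rw [← ex] at e3
    exact mul_right_cancel₀ hne e3
  have eK : p.1 = p'.1 := by
    simp only [hm, hm', paramOf, add_right_inj] at em
    rw [div_eq_div_iff (sub_ne_zero.mpr hp.1.1) (sub_ne_zero.mpr hp'.1.1)] at em
    linarith
  refine Prod.ext eK ?_
  rw [← em] at ey
  have hD := denominator_ne_zero m
  have hw := sub_ne_zero.mpr hp.1.1
  simp only [yOf, rootOf, ← eK] at ey
  field_simp at ey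
  linarith

/-- Infinitely many with no zero coordinate and none negative. -/
theorem infinite_positive :
    {p : ℚ × ℚ × ℚ | (0 < p.1 ∧ 0 < p.2.1 ∧ 0 < p.2.2) ∧
      p.1 ^ 4 + p.2.1 ^ 4 + p.2.2 ^ 4 = 1}.Infinite := by
  intro hfin
  have hflt : ∀ a b : ℚ, a ^ 4 + b ^ 4 = 1 → a = 0 ∨ b = 0 := fun a b h => by
    by_contra hab
    rw [not_or] at hab
    exact fermatLastTheoremFor_iff_rat.mp fermatLastTheoremFour a b 1 hab.1 hab.2 one_ne_zero
      (by simpa using h)
  have hroot : ∀ a : ℚ, a ^ 4 = 1 → a = 1 ∨ a = -1 := fun a h => by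
    have : (a ^ 2 - 1) * (a ^ 2 + 1) = 0 := by linear_combination h
    rcases mul_eq_zero.mp this with h' | h'
    · exact sq_eq_one_iff.mp (by linarith)
    · nlinarith [sq_nonneg a]
  set T := {p : ℚ × ℚ × ℚ | (0 < p.1 ∧ 0 < p.2.1 ∧ 0 < p.2.2) ∧
      p.1 ^ 4 + p.2.1 ^ 4 + p.2.2 ^ 4 = 1}
  set C : Set ℚ := {0, 1, -1} ∪ (fun p => p.1) '' T ∪ (fun p => -p.1) '' T ∪
    (fun p => p.2.1) '' T ∪ (fun p => -p.2.1) '' T ∪ (fun p => p.2.2) '' T ∪
    (fun p => -p.2.2) '' T
  have hC : C.Finite := by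
    simp only [C, Set.finite_union]
    exact ⟨⟨⟨⟨⟨⟨Set.toFinite _, hfin.image _⟩, hfin.image _⟩, hfin.image _⟩, hfin.image _⟩,
      hfin.image _⟩, hfin.image _⟩
  refine infinite_surface (((hC.prod (hC.prod hC))).subset fun p (hp : _ = (1 : ℚ)) => ?_)
  obtain ⟨a, b, c⟩ := p
  simp only at hp
  have h01 : ∀ a : ℚ, a ^ 4 = 1 → a ∈ C := fun a h => by
    rcases hroot a h with rfl | rfl <;> simp [C]
  have h0 : (0 : ℚ) ∈ C := by simp [C]
  simp only [Set.mem_prod]
  by_cases h : a = 0 ∨ b = 0 ∨ c = 0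
  · rcases h with rfl | rfl | rfl <;> simp only [ne_eq, OfNat.ofNat_ne_zero, not_false_eq_true,
      zero_pow, zero_add, add_zero] at hp
    · rcases hflt _ _ hp with rfl | rfl <;> simp at hp <;>
        refine ⟨?_, ?_, ?_⟩ <;> first | exact h0 | exact h01 _ hp
    · rcases hflt _ _ hp with rfl | rfl <;> simp at hp <;>
        refine ⟨?_, ?_, ?_⟩ <;> first | exact h0 | exact h01 _ hp
    · rcases hflt _ _ hp with rfl | rfl <;> simp at hp <;>
        refine ⟨?_, ?_, ?_⟩ <;> first | exact h0 | exact h01 _ hp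
  · simp only [not_or] at h
    obtain ⟨ha, hb, hc⟩ := h
    have hT : (|a|, |b|, |c|) ∈ T := ⟨⟨abs_pos.mpr ha, abs_pos.mpr hb, abs_pos.mpr hc⟩, by
      have e4 : Even 4 := ⟨2, rfl⟩
      show |a| ^ 4 + |b| ^ 4 + |c| ^ 4 = 1
      rwa [e4.pow_abs, e4.pow_abs, e4.pow_abs]⟩
    refine ⟨?_, ?_, ?_⟩
    · rcases abs_choice a with e | e
      · exact Or.inl <| Or.inl <| Or.inl <| Or.inl <| Or.inl <| Or.inr ⟨_, hT, by simp [e]⟩
      · exact Or.inl <| Or.inl <| Or.inl <| Or.inl <| Or.inr ⟨_, hT, by simp [e]⟩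
    · rcases abs_choice b with e | e
      · exact Or.inl <| Or.inl <| Or.inl <| Or.inr ⟨_, hT, by simp [e]⟩
      · exact Or.inl <| Or.inl <| Or.inr ⟨_, hT, by simp [e]⟩
    · rcases abs_choice c with e | e
      · exact Or.inl <| Or.inr ⟨_, hT, by simp [e]⟩
      · exact Or.inr ⟨_, hT, by simp [e]⟩

end FA.Elkies

end
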