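import Fermat.Agent.NagellLutz.Main

/-!
# A quartic `V² = K⁴ + 3 e K² + d K + g` and its cubic

Setting `V = K² - (X - e) / 2` turns the quartic into the cubic
`y² = X³ + a X + b` with `a = -3 e² - 4 g`, `b = 2 e³ - 8 e g + d²`, which has the point
`(-2 e, d)`; it has infinite order unless `d²` divides `4 a³ + 27 b²`.
-/

set_option autoImplicit false

noncomputable section

open WeierstrassCurve

namespace FA.Elkies

variable {e d g : ℤ}

/-- The linear coefficient of the cubic. -/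
def linCoeff (e g : ℤ) : ℤ := -3 * e ^ 2 - 4 * g

/-- The constant coefficient of the cubic. -/
def constCoeff (e d g : ℤ) : ℤ := 2 * e ^ 3 - 8 * e * g + d ^ 2

/-- The cubic has infinitely many rational solutions. -/
theorem infinite_cubic (hd : d ≠ 0)
    (hD : 4 * linCoeff e g ^ 3 + 27 * constCoeff e d g ^ 2 ≠ 0)
    (hNL : ¬ d ^ 2 ∣ 4 * linCoeff e g ^ 3 + 27 * constCoeff e d g ^ 2) :
    {p : ℚ × ℚ |
      p.2 ^ 2 = p.1 ^ 3 + (linCoeff e g : ℚ) * p.1 + (constCoeff e d g : ℚ)}.Infinite := by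
  set a := linCoeff e g with ha
  set b := constCoeff e d g with hb
  have hE : (⟨0, 0, 0, (a : ℚ), (b : ℚ)⟩ : WeierstrassCurve ℚ).IsElliptic := by
    refine ⟨isUnit_iff_ne_zero.mpr ?_⟩
    have h : (4 * (a : ℚ) ^ 3 + 27 * (b : ℚ) ^ 2) ≠ 0 := by exact_mod_cast hD
    simp only [WeierstrassCurve.Δ, b₂, b₄, b₆, b₈]
    intro e'
    apply h
    linear_combination (-1 / 16 : ℚ) * e'
  have he : ((d : ℚ)) ^ 2 = (-2 * (e : ℚ)) ^ 3 + (a : ℚ) * (-2 * (e : ℚ)) + (b : ℚ) := by
    simp only [ha, hb, linCoeff, constCoeff]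
    push_cast
    ring
  have hn : (⟨0, 0, 0, (a : ℚ), (b : ℚ)⟩ : WeierstrassCurve ℚ).toAffine.Nonsingular
      (-2 * (e : ℚ)) (d : ℚ) :=
    Affine.equation_iff_nonsingular.mp ((Affine.equation_iff _ _).mpr (by
      simp; linear_combination he))
  set P : (⟨0, 0, 0, (a : ℚ), (b : ℚ)⟩ : WeierstrassCurve ℚ).toAffine.Point := .some _ _ hn
  have hP : ¬ IsOfFinAddOrder P := fun hfin => by
    obtain ⟨x', y', hx', hy', h⟩ := FA.Summary.nagell_lutz a b hD hfin
    have : y' = d := by exact_mod_cast hy'.symm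
    subst this
    rcases h with h | h
    · exact hd h
    · exact hNL h
  intro hfin
  -- the multiples of the point are pairwise different solutions
  let coord : (⟨0, 0, 0, (a : ℚ), (b : ℚ)⟩ : WeierstrassCurve ℚ).toAffine.Point →
      Option (ℚ × ℚ) := fun Q => match Q with
    | .zero => none
    | .some x y _ => some (x, y)
  have hcoord : Function.Injective coord := by
    rintro (_ | ⟨x, y, h⟩) (_ | ⟨x', y', h'⟩) hh <;> simp [coord] at hh <;> try rfl
    obtain ⟨rfl, rfl⟩ := hh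
    rfl
  have hinj : Function.Injective fun n : ℕ => coord (n • P) :=
    hcoord.comp (injective_nsmul_iff_not_isOfFinAddOrder.mpr hP)
  refine Set.infinite_range_of_injective hinj (((hfin.image some).insert none).subset ?_)
  rintro _ ⟨n, rfl⟩
  show coord (n • P) ∈ _
  generalize n • P = Q
  cases Q with
  | zero => exact Set.mem_insert _ _
  | some x y h =>
    refine Set.mem_insert_of_mem _ ⟨(x, y), ?_, rfl⟩
    have e' := (Affine.equation_iff x y).mp h.1
    simp at e'
    exact e'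

/-- The quartic has infinitely many rational solutions, also outside a given abscissa. -/
theorem infinite_quartic (hd : d ≠ 0)
    (hD : 4 * linCoeff e g ^ 3 + 27 * constCoeff e d g ^ 2 ≠ 0)
    (hNL : ¬ d ^ 2 ∣ 4 * linCoeff e g ^ 3 + 27 * constCoeff e d g ^ 2) :
    {p : ℚ × ℚ | p.2 ^ 2 = p.1 ^ 4 + 3 * (e : ℚ) * p.1 ^ 2 + (d : ℚ) * p.1 + (g : ℚ)}.Infinite := by
  have hS := infinite_cubic hd hD hNL
  set S := {p : ℚ × ℚ | p.2 ^ 2 = p.1 ^ 3 + (linCoeff e g : ℚ) * p.1 + (constCoeff e d g : ℚ)}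
  have hex : (S \ {((-2 * (e : ℚ)), (d : ℚ)), ((-2 * (e : ℚ)), -(d : ℚ))}).Infinite :=
    hS.sdiff (Set.toFinite _)
  let φ : ℚ × ℚ → ℚ × ℚ := fun p =>
    let K := (p.2 + d) / (-2 * (p.1 + 2 * e))
    (K, K ^ 2 - (p.1 - e) / 2)
  have hne : ∀ p ∈ S \ {((-2 * (e : ℚ)), (d : ℚ)), ((-2 * (e : ℚ)), -(d : ℚ))},
      p.1 + 2 * (e : ℚ) ≠ 0 := by
    rintro ⟨X, y⟩ ⟨hp, hne⟩ h0
    have hX : X = -2 * (e : ℚ) := by linear_combination h0
    subst hX
    have hp' : y ^ 2 = (d : ℚ) ^ 2 := by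
      have := hp
      simp only [S, Set.mem_ofPred_eq, linCoeff, constCoeff] at this
      push_cast at this
      linear_combination this
    rcases sq_eq_sq_iff_eq_or_eq_neg.mp hp' with rfl | rfl <;> simp at hne
  refine ((Set.infinite_image_iff (f := φ) fun p hp p' hp' h => ?_).mpr hex).mono
    (Set.image_subset_iff.mpr fun p hp => ?_)
  · have h1 := hne p hp
    have h2 := hne p' hp'
    simp only [φ, Prod.mk.injEq] at h
    obtain ⟨hK, hV⟩ := h
    rw [hK] at hV
    have hX : p.1 = p'.1 := by linarith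
    refine Prod.ext hX ?_
    rw [hX, div_left_inj' (mul_ne_zero (by norm_num) h2)] at hK
    linarith
  · have h1 := hne p hp
    have he := hp.1
    simp only [S, Set.mem_ofPred_eq, linCoeff, constCoeff] at he
    push_cast at he
    simp only [Set.mem_preimage, Set.mem_ofPred_eq, φ]
    set K := (p.2 + (d : ℚ)) / (-2 * (p.1 + 2 * e)) with hK
    have hy : p.2 = -2 * (p.1 + 2 * e) * K - d := by
      rw [hK]; field_simp; ring
    rw [hy] at he
    refine mul_left_cancel₀ h1 ?_
    linear_combination (-1 / 4 : ℚ) * he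

end FA.Elkies

end
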